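import Mathlib

/-!
A module over `R`, finite over `O`, on which the scalars of `O` act through `R` is finite over `R`.
-/

set_option autoImplicit false

noncomputable section

namespace Fermat.Agent.Patch

variable {R : Type*} [CommRing R] {O : Type*} [CommRing O] {M : Type*} [AddCommGroup M]
  [Module R M] [Module O M] [Module.Finite O M]

/-- The scalars act through `R`. -/
def ScalarsAct (R O M : Type*) [SMul R M] [SMul O M] : Prop :=
  ∀ o : O, ∃ r : R, ∀ x : M, r • x = o • x

theorem finite_of_scalarsAct (hsc : ScalarsAct R O M) : Module.Finite R M := by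
  obtain ⟨s, hs⟩ := (Module.Finite.fg_top : (⊤ : Submodule O M).FG)
  refine ⟨⟨s, top_le_iff.1 fun x _ => ?_⟩⟩
  have hx : x ∈ Submodule.span O (s : Set M) := by rw [hs]; trivial
  clear * - hx hsc
  induction hx using Submodule.span_induction with
  | mem y hy => exact Submodule.subset_span hy
  | zero => exact zero_mem _
  | add y z _ _ hy hz => exact add_mem hy hz
  | smul o y _ hy =>
    obtain ⟨r, hr⟩ := hsc o
    rw [← hr]; exact Submodule.smul_mem _ _ hy

end Fermat.Agent.Patch
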