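import Fermat.Agent.Patch.Support
import Fermat.Agent.DefRing.PowerSeriesLocal

/-!
Dimensions of power series rings, for `R_∞` and `Λ = O[[y]]`.
-/

set_option autoImplicit false

noncomputable section

namespace Fermat.Agent.Patch

open IsLocalRing MvPowerSeries

variable {O : Type*} [CommRing O]

/-- `dim O[[X₁..X_n]] ≥ dim O + n`. -/
theorem dimGE_mvPowerSeries {m : ℕ} (h : DimGE O m) : ∀ n : ℕ,
    DimGE (MvPowerSeries (Fin n) O) (m + n)
  | 0 => dimGE_of_surjective (constantCoeff : MvPowerSeries (Fin 0) O →+* O)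
      (fun x => ⟨C x, constantCoeff_C x⟩) (by simpa using h)
  | n + 1 => by
    unfold DimGE
    rw [ringKrullDim_eq_of_ringEquiv (finSuccEquiv O n).toRingEquiv]
    refine le_trans ?_ ringKrullDim_succ_le_ringKrullDim_powerseries
    calc ((m + (n + 1) : ℕ) : WithBot ℕ∞) = ((m + n : ℕ) : WithBot ℕ∞) + 1 := by push_cast; ring
      _ ≤ ringKrullDim (MvPowerSeries (Fin n) O) + 1 :=
        add_le_add (dimGE_mvPowerSeries h n) le_rfl

/-- A local domain which is not a field has dimension at least one. -/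
theorem dimGE_one [IsDomain O] [IsLocalRing O] (h : maximalIdeal O ≠ ⊥) : DimGE O 1 :=
  Order.le_krullDim_iff.2 ⟨⟨1, ![⟨⊥, Ideal.isPrime_bot⟩, ⟨maximalIdeal O, inferInstance⟩],
    fun i => by
      fin_cases i
      exact bot_lt_iff_ne_bot.2 h⟩, rfl⟩

end Fermat.Agent.Patch
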