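import Mathlib

/-!
Ultrafilter limits in complete local rings with finite residue field, and of ring homomorphisms
into matrices over such rings. This is the compactness step of patching.
-/

set_option autoImplicit false

noncomputable section

namespace Fermat.Agent.Patch

open IsLocalRing Filter

/-- An ultrafilter on `ℕ` finer than `atTop`. -/
def patchFilter : Ultrafilter ℕ := Ultrafilter.of atTop

theorem patchFilter_le : (patchFilter : Filter ℕ) ≤ atTop := Ultrafilter.of_le _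

theorem eventually_ge (k : ℕ) : ∀ᶠ n in (patchFilter : Filter ℕ), k ≤ n :=
  patchFilter_le (eventually_ge_atTop k)

variable {Λ : Type*} [CommRing Λ] [IsLocalRing Λ] [IsNoetherianRing Λ] [Finite (ResidueField Λ)]

omit [IsNoetherianRing Λ] [Finite (ResidueField Λ)] in
theorem mem_pow_of_le {k l : ℕ} (h : k ≤ l) {x : Λ} (hx : x ∈ maximalIdeal Λ ^ l) :
    x ∈ maximalIdeal Λ ^ k := Ideal.pow_le_pow_right h hx

theorem finite_quot (k : ℕ) : Finite (Λ ⧸ maximalIdeal Λ ^ k) := by
  have : Finite (Λ ⧸ maximalIdeal Λ) := ‹Finite (ResidueField Λ)›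
  exact Ideal.finite_quotient_pow (IsNoetherian.noetherian (maximalIdeal Λ)) k

/-- Every sequence is eventually constant modulo a power of the maximal ideal. -/
theorem exists_residue (f : ℕ → Λ) (k : ℕ) :
    ∃ x : Λ, ∀ᶠ n in (patchFilter : Filter ℕ), f n - x ∈ maximalIdeal Λ ^ k := by
  classical
  have := finite_quot (Λ := Λ) k
  have h : ∀ᶠ n in (patchFilter : Filter ℕ),
      ∃ c : Λ ⧸ maximalIdeal Λ ^ k, Ideal.Quotient.mk _ (f n) = c :=
    Eventually.of_forall fun n => ⟨_, rfl⟩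
  rw [Ultrafilter.eventually_exists_iff] at h
  obtain ⟨c, hc⟩ := h
  obtain ⟨x, rfl⟩ := Ideal.Quotient.mk_surjective c
  exact ⟨x, hc.mono fun n hn => Ideal.Quotient.eq.1 hn⟩

variable [IsAdicComplete (maximalIdeal Λ) Λ]

theorem exists_ulim (f : ℕ → Λ) :
    ∃ x : Λ, ∀ k, ∀ᶠ n in (patchFilter : Filter ℕ), f n - x ∈ maximalIdeal Λ ^ k := by
  choose g hg using exists_residue f
  have cauchy : ∀ {m n}, m ≤ n → g m ≡ g n [SMOD (maximalIdeal Λ ^ m • ⊤ : Submodule Λ Λ)] := by
    intro m n h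
    rw [SModEq.sub_mem, smul_eq_mul, Ideal.mul_top]
    obtain ⟨i, hi1, hi2⟩ := ((hg m).and (hg n)).exists
    have := sub_mem (mem_pow_of_le h hi2) hi1
    simpa using this
  obtain ⟨L, hL⟩ := IsPrecomplete.prec inferInstance cauchy
  refine ⟨L, fun k => (hg k).mono fun n hn => ?_⟩
  have h2 := hL k
  rw [SModEq.sub_mem, smul_eq_mul, Ideal.mul_top] at h2
  simpa using add_mem hn h2

/-- The limit of a sequence along `patchFilter`. -/
def ulim (f : ℕ → Λ) : Λ := (exists_ulim f).choose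

theorem ulim_spec (f : ℕ → Λ) (k : ℕ) :
    ∀ᶠ n in (patchFilter : Filter ℕ), f n - ulim f ∈ maximalIdeal Λ ^ k :=
  (exists_ulim f).choose_spec k

theorem ulim_unique {f : ℕ → Λ} {x : Λ}
    (h : ∀ k, ∀ᶠ n in (patchFilter : Filter ℕ), f n - x ∈ maximalIdeal Λ ^ k) : ulim f = x := by
  rw [← sub_eq_zero]
  refine IsHausdorff.haus (I := maximalIdeal Λ) inferInstance _ fun k => ?_
  rw [SModEq.sub_mem, sub_zero, smul_eq_mul, Ideal.mul_top]
  obtain ⟨i, hi1, hi2⟩ := ((h k).and (ulim_spec f k)).exists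
  simpa using sub_mem hi1 hi2

/-- `I` tends to zero. -/
def TendsToZero (I : ℕ → Ideal Λ) : Prop :=
  ∀ k, ∀ᶠ n in (patchFilter : Filter ℕ), I n ≤ maximalIdeal Λ ^ k

theorem ulim_congr {f g : ℕ → Λ} {I : ℕ → Ideal Λ} (hI : TendsToZero I)
    (h : ∀ᶠ n in (patchFilter : Filter ℕ), f n - g n ∈ I n) : ulim f = ulim g := by
  refine ulim_unique fun k => ?_
  filter_upwards [h, hI k, ulim_spec g k] with n h1 h2 h3
  simpa using add_mem (h2 h1) h3

theorem ulim_const (x : Λ) : ulim (fun _ => x) = x :=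
  ulim_unique fun k => Eventually.of_forall fun n => by simp

theorem ulim_add (f g : ℕ → Λ) : ulim (fun n => f n + g n) = ulim f + ulim g := by
  refine ulim_unique fun k => ?_
  filter_upwards [ulim_spec f k, ulim_spec g k] with n h1 h2
  convert add_mem h1 h2 using 1; ring

theorem ulim_mul (f g : ℕ → Λ) : ulim (fun n => f n * g n) = ulim f * ulim g := by
  refine ulim_unique fun k => ?_
  filter_upwards [ulim_spec f k, ulim_spec g k] with n h1 h2
  convert add_mem (Ideal.mul_mem_right (g n) _ h1) (Ideal.mul_mem_left _ (ulim f) h2) using 1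
  ring

theorem ulim_sum {ι : Type*} (s : Finset ι) (f : ι → ℕ → Λ) :
    ulim (fun n => ∑ i ∈ s, f i n) = ∑ i ∈ s, ulim (f i) := by
  classical
  induction s using Finset.induction with
  | empty => simpa using ulim_const (0 : Λ)
  | insert a s ha ih =>
    simp only [Finset.sum_insert ha]
    rw [ulim_add, ih]

/-- A closed condition passes to the limit. -/
theorem ulim_sub_mem {J : Ideal Λ} {f g : ℕ → Λ} {I : ℕ → Ideal Λ} (hI : TendsToZero I)
    (h : ∀ᶠ n in (patchFilter : Filter ℕ), f n - g n ∈ J ⊔ I n) : ulim f - ulim g ∈ J := by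
  by_cases hJ : J = ⊤
  · simp [hJ]
  have : Nontrivial (Λ ⧸ J) := Ideal.Quotient.nontrivial_iff.2 hJ
  have : IsLocalRing (Λ ⧸ J) := .of_surjective' _ Ideal.Quotient.mk_surjective
  rw [← Ideal.Quotient.eq_zero_iff_mem]
  have hm : (maximalIdeal Λ).map (Ideal.Quotient.mk J) ≠ ⊤ := fun ht => by
    have := Ideal.comap_map_of_surjective (Ideal.Quotient.mk J) Ideal.Quotient.mk_surjective (maximalIdeal Λ)
    rw [ht, Ideal.comap_top, ← RingHom.ker_eq_comap_bot, Ideal.mk_ker,
      sup_eq_left.2 (le_maximalIdeal hJ)] at this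
    exact (maximalIdeal.isMaximal Λ).ne_top this.symm
  rw [← Ideal.mem_bot, ← Ideal.iInf_pow_eq_bot_of_isLocalRing _ hm, Ideal.mem_iInf]
  intro k
  rw [← Ideal.map_pow]
  have h' : ulim f - ulim g ∈ maximalIdeal Λ ^ k ⊔ J := by
    obtain ⟨n, hn, hn2, hn3, hn4⟩ :=
      (h.and ((hI k).and ((ulim_spec f k).and (ulim_spec g k)))).exists
    have e1 : (f n - g n) ∈ maximalIdeal Λ ^ k ⊔ J :=
      sup_comm (maximalIdeal Λ ^ k) J ▸ sup_le_sup_left hn2 J hn
    have e2 : (f n - ulim f) - (g n - ulim g) ∈ maximalIdeal Λ ^ k ⊔ J :=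
      Ideal.mem_sup_left (sub_mem hn3 hn4)
    convert sub_mem e1 e2 using 1; ring
  obtain ⟨a, ha, b, hb, hab⟩ := Submodule.mem_sup.1 h'
  rw [← hab, map_add, Ideal.Quotient.eq_zero_iff_mem.2 hb, add_zero]
  exact Ideal.mem_map_of_mem _ ha

/-! ### Matrices -/

variable {d : ℕ} {R : Type*} [CommRing R]

/-- Two matrices are congruent modulo an ideal. -/
def MatCong (J : Ideal Λ) (A B : Matrix (Fin d) (Fin d) Λ) : Prop :=
  ∀ i j, A i j - B i j ∈ J

omit [IsLocalRing Λ] [IsNoetherianRing Λ] [Finite (ResidueField Λ)]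
  [IsAdicComplete (maximalIdeal Λ) Λ] in
theorem MatCong.mono {J J' : Ideal Λ} {A B : Matrix (Fin d) (Fin d) Λ} (h : MatCong J A B)
    (hJ : J ≤ J') : MatCong J' A B := fun i j => hJ (h i j)

omit [IsLocalRing Λ] [IsNoetherianRing Λ] [Finite (ResidueField Λ)]
  [IsAdicComplete (maximalIdeal Λ) Λ] in
theorem MatCong.trans {J : Ideal Λ} {A B C : Matrix (Fin d) (Fin d) Λ} (h : MatCong J A B)
    (h' : MatCong J B C) : MatCong J A C := fun i j => by
  simpa using add_mem (h i j) (h' i j)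

omit [IsLocalRing Λ] [IsNoetherianRing Λ] [Finite (ResidueField Λ)]
  [IsAdicComplete (maximalIdeal Λ) Λ] in
theorem MatCong.symm {J : Ideal Λ} {A B : Matrix (Fin d) (Fin d) Λ} (h : MatCong J A B) :
    MatCong J B A := fun i j => by
  have := J.neg_mem (h i j); simpa using this

omit [IsLocalRing Λ] [IsNoetherianRing Λ] [Finite (ResidueField Λ)]
  [IsAdicComplete (maximalIdeal Λ) Λ] in
theorem matCong_refl (J : Ideal Λ) (A : Matrix (Fin d) (Fin d) Λ) : MatCong J A A :=
  fun i j => by simp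

omit [IsLocalRing Λ] [IsNoetherianRing Λ] [Finite (ResidueField Λ)]
  [IsAdicComplete (maximalIdeal Λ) Λ] in
theorem matCong_iff {J : Ideal Λ} {A B : Matrix (Fin d) (Fin d) Λ} :
    MatCong J A B ↔ (Ideal.Quotient.mk J).mapMatrix A = (Ideal.Quotient.mk J).mapMatrix B := by
  simp [MatCong, ← Matrix.ext_iff, Ideal.Quotient.eq]

/-- The entrywise limit. -/
def ulimMat (A : ℕ → Matrix (Fin d) (Fin d) Λ) : Matrix (Fin d) (Fin d) Λ :=
  fun i j => ulim fun n => A n i j

theorem ulimMat_spec (A : ℕ → Matrix (Fin d) (Fin d) Λ) (k : ℕ) :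
    ∀ᶠ n in (patchFilter : Filter ℕ), MatCong (maximalIdeal Λ ^ k) (A n) (ulimMat A) := by
  simp only [MatCong, eventually_all]
  exact fun i j => ulim_spec (fun n => A n i j) k

theorem ulimMat_congr {A B : ℕ → Matrix (Fin d) (Fin d) Λ} {I : ℕ → Ideal Λ} (hI : TendsToZero I)
    (h : ∀ n, MatCong (I n) (A n) (B n)) : ulimMat A = ulimMat B :=
  Matrix.ext fun i j => ulim_congr hI (Eventually.of_forall fun n => h n i j)

theorem ulimMat_const (A : Matrix (Fin d) (Fin d) Λ) : ulimMat (fun _ => A) = A :=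
  Matrix.ext fun i j => ulim_const (A i j)

theorem ulimMat_add (A B : ℕ → Matrix (Fin d) (Fin d) Λ) :
    ulimMat (fun n => A n + B n) = ulimMat A + ulimMat B :=
  Matrix.ext fun i j => ulim_add (fun n => A n i j) (fun n => B n i j)

theorem ulimMat_mul (A B : ℕ → Matrix (Fin d) (Fin d) Λ) :
    ulimMat (fun n => A n * B n) = ulimMat A * ulimMat B := by
  ext i j
  simp only [ulimMat, Matrix.mul_apply]
  rw [ulim_sum Finset.univ fun x n => A n i x * B n x j]
  exact Finset.sum_congr rfl fun x _ => ulim_mul (fun n => A n i x) (fun n => B n x j)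

/-- A sequence of maps `R → Mat_d Λ` which are ring homomorphisms modulo `I n`. -/
structure AlmostHoms (R : Type*) [CommRing R] (Λ : Type*) [CommRing Λ] (d : ℕ) where
  /-- the ideals -/
  I : ℕ → Ideal Λ
  /-- the maps -/
  A : ℕ → R → Matrix (Fin d) (Fin d) Λ
  one : ∀ n, MatCong (I n) (A n 1) 1
  add : ∀ n x y, MatCong (I n) (A n (x + y)) (A n x + A n y)
  mul : ∀ n x y, MatCong (I n) (A n (x * y)) (A n x * A n y)

namespace AlmostHoms

variable (S : AlmostHoms R Λ d) (hI : TendsToZero S.I)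

/-- The patched action. -/
def limit : R →+* Matrix (Fin d) (Fin d) Λ :=
  RingHom.mk'
    { toFun := fun x => ulimMat fun n => S.A n x
      map_one' := (ulimMat_congr hI fun n => S.one n).trans (ulimMat_const 1)
      map_mul' := fun x y => (ulimMat_congr hI fun n => S.mul n x y).trans (ulimMat_mul _ _) }
    fun x y => (ulimMat_congr hI fun n => S.add n x y).trans (ulimMat_add _ _)

end AlmostHoms

end Fermat.Agent.Patch
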