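import Fermat.Agent.Patch.Reach

/-!
The chart of the exact-sign Steinberg ring at a prime: `X = Φ - γ` and `N = σ - 1` in terms of
the eigenline `(1, t)`.
-/

set_option autoImplicit false

noncomputable section

namespace Fermat.Agent.Patch

open Matrix

variable {R : Type*} [CommRing R]

/-- The chart: the eigenline `(1, t)`, `X = (1,t)ᵀ (δ - t r, r)`, `N = s (1,t)ᵀ (-t, 1)`. -/
def chartX (δ t r : R) : Matrix (Fin 2) (Fin 2) R :=
  !![δ - t * r, r; t * (δ - t * r), t * r]

/-- The inertia part of the chart. -/
def chartN (t s : R) : Matrix (Fin 2) (Fin 2) R := !![-(s * t), s; -(s * t * t), s * t]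

end Fermat.Agent.Patch
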