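import Fermat.Agent.Patch.IharaAvoidance

/-!
The local criterion in terms of `2 × 2` matrices, for any residual Frobenius, and parameters for the
special fibre of the rings with inertia unipotent modulo `ϖ`.
-/

set_option autoImplicit false

noncomputable section

namespace Fermat.Agent.Patch

open IsLocalRing Matrix

variable {R : Type*} [CommRing R]

/-- Matrices to relations: `σ` commutes with `Φ`, `det σ = 1`, `tr σ = ζ + ζ'`, `ζ ζ' = 1`. -/
theorem zetaRelations_of_matrices {P : Ideal R} {hlf : R} (hh : 2 * hlf = 1)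
    (Φ σ : Matrix (Fin 2) (Fin 2) R) {ζ ζ' : R} (hζ : ζ * ζ' - 1 ∈ P)
    (hcomm : ∀ i k, (Φ * σ - σ * Φ) i k ∈ P) (hdet : σ.det - 1 ∈ P)
    (htr : σ.trace - (ζ + ζ') ∈ P) :
    ZetaRelations (hlf * (ζ - ζ')) (hlf * (Φ 0 0 - Φ 1 1)) (Φ 0 1) (Φ 1 0)
      (hlf * (σ 0 0 - σ 1 1)) (σ 0 1) (σ 1 0) P := by
  have c00 := hcomm 0 0
  have c01 := hcomm 0 1
  have c10 := hcomm 1 0
  simp only [Matrix.sub_apply, Matrix.mul_apply, Fin.sum_univ_two] at c00 c01 c10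
  simp only [Matrix.det_fin_two] at hdet
  simp only [Matrix.trace_fin_two] at htr
  refine ⟨?_, ?_, ?_, ?_⟩
  · convert add_mem (sub_mem (P.mul_mem_left (hlf * hlf * (σ 0 0 + σ 1 1 + ζ + ζ')) htr)
      hdet) hζ using 1
    linear_combination (ζ * ζ' - σ 0 0 * σ 1 1) * (2 * hlf + 1) * hh
  · convert P.mul_mem_left (-hlf) c01 using 1; ring
  · convert P.mul_mem_left hlf c10 using 1; ring
  · convert c00 using 1; ring

variable [IsNoetherianRing R] [IsLocalRing R] {π ϖ a b c u v w a₀ b₀ c₀ : R} {s : Finset R}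

/-- The criterion for any residual Frobenius with base values `a₀, b₀, c₀`. -/
theorem exists_special_prime_general
    (hπ : ∀ Q : Ideal R, Q.IsPrime → (π ∈ Q ↔ ϖ ∈ Q)) (hϖm : ϖ ∈ maximalIdeal R)
    (hm : ∀ x ∈ ({a - a₀, b - b₀, c - c₀, u, v, w} : Set R), x ∈ maximalIdeal R)
    (h0 : ∀ x ∈ ({a₀, b₀, c₀, a₀ ^ 2 + b₀ * c₀} : Set R), x ∈ maximalIdeal R →
      ∀ Q : Ideal R, Q.IsPrime → ϖ ∈ Q → x ∈ Q)
    (hs : ∀ x ∈ s, x ∈ maximalIdeal R)
    (hgen : ∀ Q : Ideal R, Q.IsPrime → (∀ x ∈ s, x ∈ Q) → ϖ ∈ Q → a - a₀ ∈ Q → b - b₀ ∈ Q →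
      c - c₀ ∈ Q → u ∈ Q → v ∈ Q → w ∈ Q → Q = maximalIdeal R)
    {P : Ideal R} [P.IsPrime] (hrel : ZetaRelations π a b c u v w P)
    (hdim : DimGE (R ⧸ P) (s.card + 4)) :
    ∃ M : Ideal R, M.IsPrime ∧ P ≤ M ∧ ϖ ∈ M ∧ a ^ 2 + b * c ∉ M := by
  classical
  simp only [Set.mem_insert_iff, Set.mem_singleton_iff, forall_eq_or_imp, forall_eq] at hm h0
  obtain ⟨ham, hbm, hcm, hum, hvm, hwm⟩ := hm
  obtain ⟨ha0, hb0, hc0, he0⟩ := h0
  set m := maximalIdeal R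
  by_cases he : a ^ 2 + b * c ∈ m
  swap
  · obtain ⟨M, hM, hle, hϖM, -⟩ := exists_prime_cut (n := s.card + 3) hdim hϖm
    exact ⟨M, hM, hle, hϖM, fun h => he (le_maximalIdeal hM.ne_top h)⟩
  have he0' : a₀ ^ 2 + b₀ * c₀ ∈ m := by
    convert sub_mem he (add_mem (m.mul_mem_left (a + a₀) ham)
      (add_mem (m.mul_mem_left b hcm) (m.mul_mem_left c₀ hbm))) using 1
    ring
  -- `b` or `c` a unit
  have unitCase : ∀ {a b c u v w a₀ b₀ c₀ : R}, IsUnit b → a - a₀ ∈ m → b - b₀ ∈ m → v ∈ m →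
      a₀ ^ 2 + b₀ * c₀ ∈ m →
      (∀ Q : Ideal R, Q.IsPrime → ϖ ∈ Q → a₀ ^ 2 + b₀ * c₀ ∈ Q) →
      (∀ Q : Ideal R, Q.IsPrime → (∀ x ∈ s, x ∈ Q) → ϖ ∈ Q → a - a₀ ∈ Q → b - b₀ ∈ Q →
        c - c₀ ∈ Q → u ∈ Q → v ∈ Q → w ∈ Q → Q = m) →
      ZetaRelations π a b c u v w P →
      ∃ M : Ideal R, M.IsPrime ∧ P ≤ M ∧ ϖ ∈ M ∧ a ^ 2 + b * c ∉ M := by
    intro a b c u v w a₀ b₀ c₀ hb ham hbm hvm he0' he0 hgen hrel
    obtain ⟨M, hM, hle, hv, hd⟩ := exists_prime_cut (n := s.card + 3) hdim hvm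
    have hu : u ∈ M := (Ideal.unit_mul_mem_iff_mem M hb).1 (by
      convert add_mem (hle hrel.comm₁) (M.mul_mem_left a hv) using 1; ring)
    have hw : w ∈ M := (Ideal.unit_mul_mem_iff_mem M hb).1 (by
      convert add_mem (hle hrel.comm₃) (M.mul_mem_left c hv) using 1; ring)
    have hπM : π ∈ M := hM.mem_of_pow_mem 2 (by
      convert sub_mem (add_mem (M.mul_mem_left u hu) (M.mul_mem_right w hv)) (hle hrel.det) using 1
      ring)
    have hϖM := (hπ _ hM).1 hπM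
    refine ⟨M, hM, hle, hϖM, fun he => ?_⟩
    refine not_dimGE_of_params (insert (a - a₀) (insert (b - b₀) s)) ?_ (fun Q hQ hPQ hsQ => ?_)
      ?_ hd
    · simp only [Finset.mem_insert, forall_eq_or_imp]
      exact ⟨ham, hbm, hs⟩
    · simp only [Finset.mem_insert, forall_eq_or_imp] at hsQ
      obtain ⟨haQ, hbQ, hsQ⟩ := hsQ
      have hc : c - c₀ ∈ Q := (Ideal.unit_mul_mem_iff_mem Q hb).1 (by
        convert sub_mem (sub_mem (sub_mem (hPQ he) (Q.mul_mem_left (a + a₀) haQ))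
          (he0 Q hQ (hPQ hϖM))) (Q.mul_mem_left c₀ hbQ) using 1
        ring)
      exact hgen Q hQ hsQ (hPQ hϖM) haQ hbQ hc (hPQ hu) (hPQ hv) (hPQ hw)
    · have := Finset.card_insert_le (a - a₀) (insert (b - b₀) s)
      have := Finset.card_insert_le (b - b₀) s
      omega
  by_cases hb : b ∈ m
  swap
  · exact unitCase (IsLocalRing.notMem_maximalIdeal.1 hb) ham hbm hvm he0' (fun Q hQ h => he0 he0' Q hQ h)
      hgen hrel
  by_cases hc : c ∈ m
  swap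
  · obtain ⟨M, hM, h1, h2, h3⟩ := unitCase (a := -a) (b := c) (c := b) (u := -u) (v := w) (w := v)
      (a₀ := -a₀) (b₀ := c₀) (c₀ := b₀) (IsLocalRing.notMem_maximalIdeal.1 hc)
      (by convert m.neg_mem ham using 1; ring) hcm hwm (by convert he0' using 1; ring)
      (fun Q hQ h => by convert he0 he0' Q hQ h using 1; ring)
      (fun Q hQ hs' hϖ ha hb' hc' hu hv hw => hgen Q hQ hs' hϖ
        (by convert Q.neg_mem ha using 1; ring) hc' hb'
        (by simpa using Q.neg_mem hu) hw hv)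
      ⟨by convert hrel.det using 1; ring, by convert P.neg_mem hrel.comm₂ using 1; ring,
        by convert P.neg_mem hrel.comm₁ using 1; ring,
        by convert P.neg_mem hrel.comm₃ using 1; ring⟩
    exact ⟨M, hM, h1, h2, fun h => h3 (by convert h using 1; ring)⟩
  -- residually scalar
  have ha : a ∈ m := (maximalIdeal.isMaximal R).isPrime.mem_of_pow_mem 2 (by
    convert sub_mem he (m.mul_mem_right c hb) using 1; ring)
  have ha₀ : a₀ ∈ m := by simpa using sub_mem ha ham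
  have hb₀ : b₀ ∈ m := by simpa using sub_mem hb hbm
  have hc₀ : c₀ ∈ m := by simpa using sub_mem hc hcm
  refine exists_special_prime hπ ?_ hs (fun Q hQ hsQ hϖ h1 h2 h3 h4 h5 h6 => ?_) hrel hdim
  · simp only [Set.mem_insert_iff, Set.mem_singleton_iff, forall_eq_or_imp, forall_eq]
    exact ⟨hϖm, ha, hb, hc, hum, hvm, hwm⟩
  · exact hgen Q hQ hsQ hϖ (sub_mem h1 (ha0 ha₀ Q hQ hϖ)) (sub_mem h2 (hb0 hb₀ Q hQ hϖ))
      (sub_mem h3 (hc0 hc₀ Q hQ hϖ)) h4 h5 h6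

omit [IsNoetherianRing R] [IsLocalRing R] in
/-- Modulo `ϖ` the unipotent ring with residually trivial Frobenius has the three parameters
`a, b + w, c + v`. -/
theorem all_mem_of_params {Q : Ideal R} [Q.IsPrime] (hdet : u ^ 2 + v * w ∈ Q)
    (h1 : u * b - a * v ∈ Q) (h2 : u * c - a * w ∈ Q) (h3 : b * w - c * v ∈ Q) (ha : a ∈ Q)
    (hbw : b + w ∈ Q) (hcv : c + v ∈ Q) :
    a ∈ Q ∧ b ∈ Q ∧ c ∈ Q ∧ u ∈ Q ∧ v ∈ Q ∧ w ∈ Q := by
  have hQ : Q.IsPrime := inferInstance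
  have huw : u * w ∈ Q := by
    convert sub_mem (sub_mem (Q.mul_mem_left u hbw) h1) (Q.mul_mem_right v ha) using 1; ring
  have huv : u * v ∈ Q := by
    convert sub_mem (sub_mem (Q.mul_mem_left u hcv) h2) (Q.mul_mem_right w ha) using 1; ring
  have hu : u ∈ Q := by
    rcases hQ.mem_or_mem huw with h | hw
    · exact h
    · exact hQ.mem_of_pow_mem 2 (by convert sub_mem hdet (Q.mul_mem_left v hw) using 1; ring)
  have hvw : v * w ∈ Q := by convert sub_mem hdet (Q.mul_mem_left u hu) using 1; ring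
  have hsq : v ^ 2 - w ^ 2 ∈ Q := by
    convert add_mem (sub_mem h3 (Q.mul_mem_right w hbw)) (Q.mul_mem_right v hcv) using 1; ring
  have hboth : v ∈ Q ∧ w ∈ Q := by
    rcases hQ.mem_or_mem hvw with hv | hw
    · exact ⟨hv, hQ.mem_of_pow_mem 2 (by
        convert sub_mem (Q.mul_mem_left v hv) hsq using 1; ring)⟩
    · exact ⟨hQ.mem_of_pow_mem 2 (by
        convert add_mem (Q.mul_mem_left w hw) hsq using 1; ring), hw⟩
  exact ⟨ha, by simpa using sub_mem hbw hboth.2, by simpa using sub_mem hcv hboth.1, hu, hboth⟩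

omit [IsNoetherianRing R] [IsLocalRing R] in
/-- Modulo `ϖ`, where the Frobenius discriminant is a unit inertia is trivial: parameters
`a - a₀, b - b₀, c - c₀`. -/
theorem inertia_mem_of_discr {Q : Ideal R} [Q.IsPrime] (hdet : u ^ 2 + v * w ∈ Q)
    (h1 : u * b - a * v ∈ Q) (h2 : u * c - a * w ∈ Q) (h3 : b * w - c * v ∈ Q)
    (he : a ^ 2 + b * c ∉ Q) : u ∈ Q ∧ v ∈ Q ∧ w ∈ Q := by
  have hQ : Q.IsPrime := inferInstance
  have key : ∀ z, (a ^ 2 + b * c) * z ^ 2 ∈ Q → z ∈ Q := fun z hz =>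
    hQ.mem_of_pow_mem 2 ((hQ.mem_or_mem hz).resolve_left he)
  refine ⟨key u ?_, key v ?_, key w ?_⟩
  · convert add_mem (add_mem (Q.mul_mem_left (a ^ 2) hdet) (Q.mul_mem_left (u * c) h1))
      (Q.mul_mem_left (a * v) h2) using 1
    ring
  · convert sub_mem (sub_mem (Q.mul_mem_left (b ^ 2) hdet) (Q.mul_mem_left (u * b + a * v) h1))
      (Q.mul_mem_left (b * v) h3) using 1
    ring
  · convert add_mem (sub_mem (Q.mul_mem_left (c ^ 2) hdet) (Q.mul_mem_left (u * c + a * w) h2))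
      (Q.mul_mem_left (c * w) h3) using 1
    ring

omit [IsNoetherianRing R] [IsLocalRing R] in
/-- Modulo `ϖ`, residually non-scalar Frobenius with equal eigenvalues: parameters
`a - a₀, b - b₀, (c - c₀) + v`. -/
theorem all_mem_of_params_of_isUnit {Q : Ideal R} [Q.IsPrime] (hdet : u ^ 2 + v * w ∈ Q)
    (h1 : u * b - a * v ∈ Q) (h3 : b * w - c * v ∈ Q) (hb : IsUnit b)
    (he : a₀ ^ 2 + b₀ * c₀ ∈ Q) (ha : a - a₀ ∈ Q) (hbb : b - b₀ ∈ Q) (hcv : c - c₀ + v ∈ Q) :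
    c - c₀ ∈ Q ∧ u ∈ Q ∧ v ∈ Q ∧ w ∈ Q := by
  have hQ : Q.IsPrime := inferInstance
  have hv : v ∈ Q := by
    have h : (a ^ 2 + b * c) * v ^ 2 ∈ Q := by
      convert sub_mem (sub_mem (Q.mul_mem_left (b ^ 2) hdet) (Q.mul_mem_left (u * b + a * v) h1))
        (Q.mul_mem_left (b * v) h3) using 1
      ring
    rcases hQ.mem_or_mem h with he' | hv2
    · refine (Ideal.unit_mul_mem_iff_mem Q hb).1 ?_
      convert add_mem (sub_mem (Q.mul_mem_left b hcv) he') (add_mem he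
        (add_mem (Q.mul_mem_left (a + a₀) ha) (Q.mul_mem_left c₀ hbb))) using 1
      ring
    · exact hQ.mem_of_pow_mem 2 hv2
  refine ⟨by simpa using sub_mem hcv hv, (Ideal.unit_mul_mem_iff_mem Q hb).1 ?_, hv,
    (Ideal.unit_mul_mem_iff_mem Q hb).1 ?_⟩
  · convert add_mem h1 (Q.mul_mem_left a hv) using 1; ring
  · convert add_mem h3 (Q.mul_mem_left c hv) using 1; ring

omit [IsNoetherianRing R] [IsLocalRing R] in
/-- Modulo `ϖ` (so `q = 1`) the relation `Φ N = q N Φ` becomes commutation. -/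
theorem comm_mem_of_twisted {Q : Ideal R} {q : R} (hq : q - 1 ∈ Q)
    (Φ N : Matrix (Fin 2) (Fin 2) R) (h : ∀ i k, (Φ * N - q • (N * Φ)) i k ∈ Q) :
    ∀ i k, (Φ * N - N * Φ) i k ∈ Q := fun i k => by
  convert add_mem (h i k) (Q.mul_mem_right ((N * Φ) i k) hq) using 1
  simp only [Matrix.sub_apply, Matrix.smul_apply, smul_eq_mul]
  ring

end Fermat.Agent.Patch
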