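import Fermat.Agent.Patch.Dimension

/-!
Support of a patched module: an action `ρ : R →+* Mat_d Λ` on a finite free `Λ`-module whose image
contains the scalars. All components of the support have coheight `dim Λ`, and they are detected
after reduction modulo any ideal of `Λ`.
-/

set_option autoImplicit false

noncomputable section

namespace Fermat.Agent.Patch

variable {R : Type*} [CommRing R] {Λ : Type*} [CommRing Λ] {d : ℕ}
  (ρ : R →+* Matrix (Fin d) (Fin d) Λ)

/-- The scalars lie in the image of `ρ`. -/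
def ScalarsIn : Prop := ∀ l : Λ, ∃ r, ρ r = l • (1 : Matrix (Fin d) (Fin d) Λ)

/-- `ρ r` vanishes modulo `J`. -/
def VanishesMod (J : Ideal Λ) (r : R) : Prop := ∀ i k, ρ r i k ∈ J

/-- The prime `P` lies over `J`-scalars. -/
def ContainsScalars (J : Ideal Λ) (P : Ideal R) : Prop :=
  ∀ r : R, ∀ l ∈ J, ρ r = l • (1 : Matrix (Fin d) (Fin d) Λ) → r ∈ P

variable {ρ}

/-- Nakayama (Cayley–Hamilton): elements killing the reduction lie in every prime of the support
lying over `J`. -/
theorem mem_of_vanishesMod (hsc : ScalarsIn ρ) {J : Ideal Λ} {P : Ideal R} [hP : P.IsPrime]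
    (hK : RingHom.ker ρ ≤ P) (hJP : ContainsScalars ρ J P) {x : R} (hx : VanishesMod ρ J x) :
    x ∈ P := by
  rcases subsingleton_or_nontrivial Λ with hΛ | hΛ
  · exact hK (RingHom.mem_ker.2 (Subsingleton.elim _ _))
  set M := ρ x
  have hmap : (Ideal.Quotient.mk J).mapMatrix M = 0 := by
    ext i k; simpa [Ideal.Quotient.eq_zero_iff_mem] using hx i k
  have hcoef : ∀ i, i < d → M.charpoly.coeff i ∈ J := by
    intro i hi
    rw [← Ideal.Quotient.eq_zero_iff_mem, ← Polynomial.coeff_map, ← Matrix.charpoly_map]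
    rw [show M.map (Ideal.Quotient.mk J) = 0 from hmap, Matrix.charpoly_zero,
      Fintype.card_fin, Polynomial.coeff_X_pow, if_neg hi.ne]
  have hch := Matrix.aeval_self_charpoly M
  rw [Polynomial.aeval_eq_sum_range, Matrix.charpoly_natDegree_eq_dim, Fintype.card_fin,
    Finset.sum_range_succ] at hch
  have hlead : M.charpoly.coeff d = 1 := by
    have := (Matrix.charpoly_monic M).coeff_natDegree
    rwa [Matrix.charpoly_natDegree_eq_dim, Fintype.card_fin] at this
  rw [hlead, one_smul] at hch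
  choose f hf using hsc
  set y := ∑ i ∈ Finset.range d, f (M.charpoly.coeff i) * x ^ i + x ^ d
  have hy : y ∈ P := hK (by
    rw [RingHom.mem_ker, ← hch]
    simp [y, map_sum, hf, M])
  have : x ^ d ∈ P := by
    have h1 : ∑ i ∈ Finset.range d, f (M.charpoly.coeff i) * x ^ i ∈ P := by
      refine sum_mem fun i hi => P.mul_mem_right _ (hJP _ _ ?_ (hf _))
      exact hcoef i (Finset.mem_range.1 hi)
    simpa [y] using sub_mem hy h1
  exact hP.mem_of_pow_mem _ this

/-- Two congruent actions have the same support over `J`. -/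
theorem ker_le_of_congr {ρ' : R →+* Matrix (Fin d) (Fin d) Λ} (hsc : ScalarsIn ρ) {J : Ideal Λ}
    (h : ∀ x i k, ρ x i k - ρ' x i k ∈ J) {P : Ideal R} [P.IsPrime]
    (hK : RingHom.ker ρ ≤ P) (hJP : ContainsScalars ρ J P) : RingHom.ker ρ' ≤ P := by
  intro x hx
  refine mem_of_vanishesMod hsc hK hJP fun i k => ?_
  have := h x i k
  rwa [RingHom.mem_ker.1 hx, Matrix.zero_apply, sub_zero] at this

/-- For a principal ideal it is enough to contain one scalar. -/
theorem containsScalars_span_singleton (hsc : ScalarsIn ρ) {l : Λ} {r : R}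
    (hr : ρ r = l • (1 : Matrix (Fin d) (Fin d) Λ)) {P : Ideal R} (hK : RingHom.ker ρ ≤ P)
    (hrP : r ∈ P) : ContainsScalars ρ (Ideal.span {l}) P := by
  intro x m hm hx
  obtain ⟨c, rfl⟩ := Ideal.mem_span_singleton'.1 hm
  obtain ⟨s, hs⟩ := hsc c
  have : x - s * r ∈ P := hK (by
    rw [RingHom.mem_ker, map_sub, map_mul, hx, hs, hr, smul_mul_assoc, one_mul, smul_smul,
      sub_self])
  simpa using add_mem this (P.mul_mem_left s hrP)

section Finite

variable [IsNoetherianRing Λ] [IsDomain Λ] [NeZero d]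

/-- The scalar map into `R / ker ρ`. -/
def scalarHom (hsc : ScalarsIn ρ) : Λ →+* R ⧸ RingHom.ker ρ :=
  have inj := RingHom.kerLift_injective ρ
  have key : ∀ l, RingHom.kerLift ρ (Ideal.Quotient.mk _ (hsc l).choose)
      = l • (1 : Matrix (Fin d) (Fin d) Λ) := fun l => (hsc l).choose_spec
  { toFun := fun l => Ideal.Quotient.mk _ (hsc l).choose
    map_one' := inj (by rw [key, map_one, one_smul])
    map_mul' := fun a b => inj (by rw [map_mul, key, key, key, smul_mul_assoc, one_mul, smul_smul])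
    map_zero' := inj (by rw [key, map_zero, zero_smul])
    map_add' := fun a b => inj (by rw [map_add, key, key, key, add_smul]) }

omit [IsNoetherianRing Λ] [IsDomain Λ] [NeZero d] in
theorem scalarHom_eq (hsc : ScalarsIn ρ) {l : Λ} {r : R}
    (hr : ρ r = l • (1 : Matrix (Fin d) (Fin d) Λ)) :
    scalarHom hsc l = Ideal.Quotient.mk _ r := by
  refine Ideal.Quotient.eq.2 (RingHom.mem_ker.2 ?_)
  rw [map_sub, hr, (hsc l).choose_spec, sub_self]

omit [IsNoetherianRing Λ] [IsDomain Λ] [NeZero d] in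
theorem kerLift_scalarHom (hsc : ScalarsIn ρ) (l : Λ) :
    RingHom.kerLift ρ (scalarHom hsc l) = l • (1 : Matrix (Fin d) (Fin d) Λ) :=
  (hsc l).choose_spec

omit [IsDomain Λ] [NeZero d] in
theorem finite_scalarHom (hsc : ScalarsIn ρ) : (scalarHom hsc).Finite := by
  let := (scalarHom hsc).toAlgebra
  let f : (R ⧸ RingHom.ker ρ) →ₗ[Λ] Matrix (Fin d) (Fin d) Λ :=
    { toFun := RingHom.kerLift ρ
      map_add' := map_add _
      map_smul' := fun l x => by
        rw [Algebra.smul_def, map_mul, RingHom.algebraMap_toAlgebra, kerLift_scalarHom,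
          smul_mul_assoc, one_mul, RingHom.id_apply] }
  exact Module.Finite.of_injective f (RingHom.kerLift_injective ρ)

omit [IsNoetherianRing Λ] in
/-- Minimal primes of the support meet the scalars in zero. -/
theorem comap_scalarHom_eq_bot (hsc : ScalarsIn ρ) {P : Ideal (R ⧸ RingHom.ker ρ)}
    (hP : P ∈ minimalPrimes (R ⧸ RingHom.ker ρ)) : P.comap (scalarHom hsc) = ⊥ := by
  refine (Submodule.eq_bot_iff _).2 fun l hl => by_contra fun hl0 => ?_
  refine Set.disjoint_iff.1 (Ideal.disjoint_nonZeroDivisors_of_mem_minimalPrimes hP)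
    ⟨Ideal.mem_comap.1 hl, ?_⟩
  rw [SetLike.mem_coe, mem_nonZeroDivisors_iff]
  have key : ∀ x, scalarHom hsc l * x = 0 → x = 0 := fun x hx => by
    have := congrArg (RingHom.kerLift ρ) hx
    rw [map_mul, kerLift_scalarHom, map_zero, smul_mul_assoc, one_mul] at this
    exact RingHom.kerLift_injective ρ (by
      rw [map_zero]; exact (smul_eq_zero.1 this).resolve_left hl0)
  exact ⟨key, fun x hx => key x (by rwa [mul_comm])⟩

omit [IsNoetherianRing Λ] [IsDomain Λ] [NeZero d] in
theorem map_mem_minimalPrimes {P : Ideal R} (hP : P ∈ (RingHom.ker ρ).minimalPrimes) :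
    P.map (Ideal.Quotient.mk (RingHom.ker ρ)) ∈ minimalPrimes (R ⧸ RingHom.ker ρ) ∧
      (P.map (Ideal.Quotient.mk (RingHom.ker ρ))).comap (Ideal.Quotient.mk (RingHom.ker ρ)) = P := by
  have hcomap : (P.map (Ideal.Quotient.mk (RingHom.ker ρ))).comap
      (Ideal.Quotient.mk (RingHom.ker ρ)) = P := by
    rw [Ideal.comap_map_of_surjective _ Ideal.Quotient.mk_surjective, ← RingHom.ker_eq_comap_bot,
      Ideal.mk_ker, sup_eq_left.2 hP.1.2]
  refine ⟨?_, hcomap⟩
  have := hP.1.1
  refine ⟨⟨Ideal.map_isPrime_of_surjective Ideal.Quotient.mk_surjective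
    (by rw [Ideal.mk_ker]; exact hP.1.2), bot_le⟩, fun Q hQ hQle => ?_⟩
  have h1 : Q.comap (Ideal.Quotient.mk (RingHom.ker ρ)) ≤ P := hcomap ▸ Ideal.comap_mono hQle
  have := hQ.1
  have h2 := hP.2 ⟨Ideal.IsPrime.comap (Ideal.Quotient.mk (RingHom.ker ρ)), by
    intro x hx
    rw [Ideal.mem_comap, Ideal.Quotient.eq_zero_iff_mem.2 hx]
    exact Q.zero_mem⟩ h1
  rw [← Ideal.map_comap_of_surjective _ Ideal.Quotient.mk_surjective Q]
  exact Ideal.map_mono h2

/-- Going up from a minimal prime of the support. -/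
theorem exists_prime_over (hsc : ScalarsIn ρ) {P : Ideal R}
    (hP : P ∈ (RingHom.ker ρ).minimalPrimes) {q : Ideal Λ} [q.IsPrime] :
    ∃ P' : Ideal R, P'.IsPrime ∧ P ≤ P' ∧ RingHom.ker ρ ≤ P' ∧
      ∀ r l, ρ r = l • (1 : Matrix (Fin d) (Fin d) Λ) → (r ∈ P' ↔ l ∈ q) := by
  let := (scalarHom hsc).toAlgebra
  have : Module.Finite Λ (R ⧸ RingHom.ker ρ) := finite_scalarHom hsc
  obtain ⟨hmin, hcomap⟩ := map_mem_minimalPrimes hP
  set P0 := P.map (Ideal.Quotient.mk (RingHom.ker ρ))
  have := hmin.1.1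
  have : P0.LiesOver (⊥ : Ideal Λ) := ⟨(comap_scalarHom_eq_bot hsc hmin).symm⟩
  obtain ⟨Q, hle, hQ, hQq⟩ := P0.exists_ideal_ge_liesOver_of_le (p := (⊥ : Ideal Λ)) (q := q) bot_le
  refine ⟨Q.comap (Ideal.Quotient.mk _), Ideal.IsPrime.comap _,
    hcomap ▸ Ideal.comap_mono hle, fun x hx => ?_, fun r l hr => ?_⟩
  · rw [Ideal.mem_comap, Ideal.Quotient.eq_zero_iff_mem.2 hx]; exact Q.zero_mem
  · rw [Ideal.mem_comap, ← scalarHom_eq hsc hr, hQq.over]; rfl

/-- Components of the support have coheight at least `dim Λ`. -/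
theorem dimGE_of_mem_minimalPrimes (hsc : ScalarsIn ρ) {P : Ideal R}
    (hP : P ∈ (RingHom.ker ρ).minimalPrimes) {n : ℕ} (hn : DimGE Λ n) : DimGE (R ⧸ P) n := by
  let := (scalarHom hsc).toAlgebra
  have : Module.Finite Λ (R ⧸ RingHom.ker ρ) := finite_scalarHom hsc
  obtain ⟨hmin, hcomap⟩ := map_mem_minimalPrimes hP
  set P0 := P.map (Ideal.Quotient.mk (RingHom.ker ρ))
  have := hmin.1.1
  obtain ⟨l, hl⟩ := Order.le_krullDim_iff.1 hn
  obtain ⟨l', hl', hhead⟩ : ∃ l' : LTSeries (PrimeSpectrum Λ), n ≤ l'.length ∧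
      l'.head.asIdeal = ⊥ := by
    by_cases h0 : l.head.asIdeal = ⊥
    · exact ⟨l, hl.ge, h0⟩
    · refine ⟨l.cons ⟨⊥, Ideal.isPrime_bot⟩ (bot_lt_iff_ne_bot.2 h0), ?_, by simp⟩
      rw [RelSeries.cons_length]; omega
  have : P0.LiesOver l'.head.asIdeal := by
    rw [hhead]; exact ⟨(comap_scalarHom_eq_bot hsc hmin).symm⟩
  obtain ⟨L, hL, hLhead, -⟩ := Ideal.exists_ltSeries_of_hasGoingUp l' P0
  unfold DimGE
  rw [ringKrullDim_quotient]
  let e : PrimeSpectrum (R ⧸ RingHom.ker ρ) → PrimeSpectrum R :=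
    PrimeSpectrum.comap (Ideal.Quotient.mk _)
  have emono : StrictMono e := fun a b hab =>
    show a.asIdeal.comap _ < b.asIdeal.comap _ from
    lt_of_le_of_ne (Ideal.comap_mono hab.le) fun h => hab.ne (PrimeSpectrum.ext
      (Ideal.comap_injective_of_surjective _ Ideal.Quotient.mk_surjective h))
  refine le_trans (by exact_mod_cast hl') (Order.le_krullDim_iff.2 ⟨⟨L.length,
    fun i => ⟨e (L i), ?_⟩, fun i => emono (L.step i)⟩, hL⟩)
  intro x hx
  have h1 : P0 ≤ (L i).asIdeal := by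
    have := L.head_le i
    rw [hLhead] at this
    exact this
  exact h1 (Ideal.mem_map_of_mem _ hx)

end Finite

end Fermat.Agent.Patch
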