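import Mathlib

/-!
Dimension bookkeeping for quotients of Noetherian local rings by primes.
-/

set_option autoImplicit false

noncomputable section

namespace Fermat.Agent.Patch

open IsLocalRing

variable {R : Type*} [CommRing R]

/-- `DimGE R n`: the Krull dimension of `R` is at least `n`. -/
def DimGE (R : Type*) [CommRing R] (n : ℕ) : Prop := (n : WithBot ℕ∞) ≤ ringKrullDim R

theorem DimGE.mono {n m : ℕ} (h : DimGE R m) (hnm : n ≤ m) : DimGE R n :=
  le_trans (by exact_mod_cast hnm) h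

theorem dimGE_of_surjective {S : Type*} [CommRing S] (f : R →+* S) (hf : Function.Surjective f)
    {n : ℕ} (h : DimGE S n) : DimGE R n :=
  le_trans h (ringKrullDim_le_of_surjective f hf)

/-- A prime below an element of a chain of length `n` above `I`. -/
theorem exists_prime_dimGE {I : Ideal R} {n : ℕ} (h : DimGE (R ⧸ I) n) :
    ∃ P : Ideal R, P.IsPrime ∧ I ≤ P ∧ DimGE (R ⧸ P) n := by
  rw [DimGE, ringKrullDim_quotient] at h
  obtain ⟨l, hl⟩ := Order.le_krullDim_iff.1 h
  refine ⟨l.head.1.asIdeal, l.head.1.2, fun x hx => l.head.2 hx, ?_⟩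
  rw [DimGE, ringKrullDim_quotient]
  refine Order.le_krullDim_iff.2 ⟨⟨l.length, fun i => ⟨(l i).1, ?_⟩, fun i => l.step i⟩, hl⟩
  exact fun x hx => (Subtype.coe_le_coe.2 (l.head_le i)) hx

/-- A strictly smaller prime has strictly bigger coheight. -/
theorem dimGE_succ_of_lt {P P' : Ideal R} [P.IsPrime] [P'.IsPrime] (h : P < P') {n : ℕ}
    (hn : DimGE (R ⧸ P') n) : DimGE (R ⧸ P) (n + 1) := by
  rw [DimGE, ringKrullDim_quotient] at hn ⊢
  obtain ⟨l, hl⟩ := Order.le_krullDim_iff.1 hn
  refine Order.le_krullDim_iff.2 ?_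
  let e : PrimeSpectrum.zeroLocus (R := R) P' → PrimeSpectrum.zeroLocus (R := R) P :=
    fun q => ⟨q.1, fun x hx => q.2 (h.le hx)⟩
  let l' := l.map e fun a b hab => hab
  let p0 : PrimeSpectrum.zeroLocus (R := R) P := ⟨⟨P, ‹_›⟩, fun x hx => hx⟩
  have h0 : p0 < l'.head := show (⟨P, ‹_›⟩ : PrimeSpectrum R) < (l.head).1 from
    lt_of_lt_of_le (b := (⟨P', ‹_›⟩ : PrimeSpectrum R)) h fun x hx => l.head.2 hx
  exact ⟨l'.cons p0 h0, by rw [RelSeries.cons_length]; show l.length + 1 = n + 1; rw [hl]⟩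

variable [IsNoetherianRing R] [IsLocalRing R]

/-- Cutting by finitely many elements lowers the dimension by at most their number. -/
theorem dimGE_sub_card {P : Ideal R} [P.IsPrime] {n : ℕ} (h : DimGE (R ⧸ P) n) (s : Finset R)
    (hs : ∀ x ∈ s, x ∈ maximalIdeal R) :
    DimGE (R ⧸ (P ⊔ Ideal.span (s : Set R))) (n - s.card) := by
  classical
  have : Nontrivial (R ⧸ P) := Ideal.Quotient.nontrivial_iff.2 Ideal.IsPrime.ne_top'
  have : IsLocalRing (R ⧸ P) := .of_surjective' _ Ideal.Quotient.mk_surjective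
  set q := Ideal.Quotient.mk P
  have hj : ((s.image q : Finset (R ⧸ P)) : Set (R ⧸ P)) ⊆ Ring.jacobson (R ⧸ P) := by
    intro y hy
    obtain ⟨x, hx, rfl⟩ := Finset.mem_image.1 hy
    rw [SetLike.mem_coe, IsLocalRing.ringJacobson_eq_maximalIdeal]
    exact ((mem_maximalIdeal x).1 (hs x hx) |> fun hu => by
      rw [mem_maximalIdeal]
      intro hq
      have := IsLocalRing.of_surjective' q Ideal.Quotient.mk_surjective
      have : IsLocalHom q := IsLocalHom.of_surjective q Ideal.Quotient.mk_surjective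
      exact hu (isUnit_of_map_unit q x hq))
  have hb := ringKrullDim_le_ringKrullDim_quotient_add_card (s.image q) hj
  have he : Ideal.span ((s.image q : Finset (R ⧸ P)) : Set (R ⧸ P))
      = (Ideal.span (s : Set R)).map q := by rw [Finset.coe_image, Ideal.map_span]
  rw [he] at hb
  have e := ringKrullDim_eq_of_ringEquiv
    (DoubleQuot.quotQuotEquivQuotSup P (Ideal.span (s : Set R)))
  rw [e] at hb
  have hcard : ((s.image q).card : WithBot ℕ∞) ≤ (s.card : WithBot ℕ∞) := by
    exact_mod_cast Finset.card_image_le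
  have := h.trans (hb.trans (add_le_add le_rfl hcard))
  unfold DimGE
  generalize ringKrullDim (R ⧸ (P ⊔ Ideal.span (s : Set R))) = D at this ⊢
  induction D using WithBot.recBotCoe with
  | bot => simp at this
  | coe a =>
    induction a using ENat.recTopCoe with
    | top => exact le_top
    | coe a =>
      have h' : n ≤ a + s.card := by exact_mod_cast this
      show (((n - s.card : ℕ) : ℕ∞) : WithBot ℕ∞) ≤ ((a : ℕ∞) : WithBot ℕ∞)
      exact WithBot.coe_le_coe.2 (Nat.cast_le.2 (Nat.sub_le_iff_le_add.2 h'))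

/-- Cutting by one element. -/
theorem exists_prime_cut {P : Ideal R} [P.IsPrime] {n : ℕ} (h : DimGE (R ⧸ P) (n + 1)) {x : R}
    (hx : x ∈ maximalIdeal R) : ∃ P' : Ideal R, P'.IsPrime ∧ P ≤ P' ∧ x ∈ P' ∧ DimGE (R ⧸ P') n := by
  obtain ⟨P', hP', hle, hd⟩ := exists_prime_dimGE (dimGE_sub_card h {x} (by simpa using hx))
  exact ⟨P', hP', le_sup_left.trans hle,
    hle (Ideal.mem_sup_right (Ideal.subset_span (by simp))), by simpa using hd⟩

/-- Upper bound: parameters of `R / P`. -/
theorem not_dimGE_of_params {P : Ideal R} [P.IsPrime] (s : Finset R)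
    (hs : ∀ x ∈ s, x ∈ maximalIdeal R)
    (hm : ∀ Q : Ideal R, Q.IsPrime → P ≤ Q → (∀ x ∈ s, x ∈ Q) → Q = maximalIdeal R)
    {n : ℕ} (hn : s.card < n) : ¬ DimGE (R ⧸ P) n := by
  intro h
  have h1 := (dimGE_sub_card h s hs).mono (show 1 ≤ n - s.card by omega)
  obtain ⟨Q, hQ, hle, hd⟩ := exists_prime_dimGE h1
  have hQm : Q = maximalIdeal R :=
    hm Q hQ (le_sup_left.trans hle) fun x hx => hle (Ideal.mem_sup_right (Ideal.subset_span hx))
  subst hQm
  rw [DimGE, ringKrullDim_eq_zero_of_isField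
    ((Ideal.Quotient.maximal_ideal_iff_isField_quotient _).1 (maximalIdeal.isMaximal R))] at hd
  exact absurd hd (by decide)

end Fermat.Agent.Patch
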