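import Fermat.Agent.Patch.Support

/-!
Taylor's trick at a prime `q ≡ 1 (mod p)`.

On every full-dimensional component of the local ring with inertia eigenvalues `ζ, ζ⁻¹`, the
discriminant of Frobenius is non-nilpotent modulo `ϖ`; a component with unipotent inertia through
such a point of the special fibre is unramified.

Coordinates: the traceless parts of Frobenius and inertia are `!![a, b; c, -a]` and
`!![u, v; w, -u]`; they commute and `u ^ 2 + v * w = π ^ 2`.
-/

set_option autoImplicit false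

noncomputable section

namespace Fermat.Agent.Patch

open IsLocalRing

section Components

variable {R : Type*} [CommRing R] [IsNoetherianRing R] [IsLocalRing R]

/-- The commutation and determinant relations of the `ζ`-ring. -/
structure ZetaRelations (π a b c u v w : R) (P : Ideal R) : Prop where
  det : u ^ 2 + v * w - π ^ 2 ∈ P
  comm₁ : u * b - a * v ∈ P
  comm₂ : u * c - a * w ∈ P
  comm₃ : b * w - c * v ∈ P

variable {π ϖ a b c u v w : R} {s : Finset R}

/-- Frobenius residually scalar. -/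
theorem exists_special_prime
    (hπ : ∀ Q : Ideal R, Q.IsPrime → (π ∈ Q ↔ ϖ ∈ Q))
    (hm : ∀ x ∈ ({ϖ, a, b, c, u, v, w} : Set R), x ∈ maximalIdeal R)
    (hs : ∀ x ∈ s, x ∈ maximalIdeal R)
    (hgen : ∀ Q : Ideal R, Q.IsPrime → (∀ x ∈ s, x ∈ Q) → ϖ ∈ Q → a ∈ Q → b ∈ Q → c ∈ Q →
      u ∈ Q → v ∈ Q → w ∈ Q → Q = maximalIdeal R)
    {P : Ideal R} [P.IsPrime] (hrel : ZetaRelations π a b c u v w P)
    (hdim : DimGE (R ⧸ P) (s.card + 4)) :
    ∃ M : Ideal R, M.IsPrime ∧ P ≤ M ∧ ϖ ∈ M ∧ a ^ 2 + b * c ∉ M := by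
  classical
  simp only [Set.mem_insert_iff, Set.mem_singleton_iff, forall_eq_or_imp, forall_eq] at hm
  obtain ⟨hϖm, ham, hbm, hcm, hum, hvm, hwm⟩ := hm
  have hπm : π ∈ maximalIdeal R := (hπ _ inferInstance).2 hϖm
  -- one cut by `v`
  obtain ⟨P₁, hP₁, hle₁, hv₁, hd₁⟩ := exists_prime_cut (n := s.card + 3) hdim hvm
  have hu2 : u ^ 2 - π ^ 2 ∈ P₁ := by
    convert sub_mem (hle₁ hrel.det) (P₁.mul_mem_right w hv₁) using 1; ring
  have hub : u * b ∈ P₁ := by
    convert add_mem (hle₁ hrel.comm₁) (P₁.mul_mem_left a hv₁) using 1; ring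
  have hbw : b * w ∈ P₁ := by
    convert add_mem (hle₁ hrel.comm₃) (P₁.mul_mem_left c hv₁) using 1; ring
  by_cases hϖ₁ : ϖ ∈ P₁
  · have hπ₁ := (hπ _ hP₁).2 hϖ₁
    have hu₁ : u ∈ P₁ := hP₁.mem_of_pow_mem 2 (by
      convert add_mem hu2 (Ideal.pow_mem_of_mem P₁ hπ₁ 2 two_pos) using 1; ring)
    have haw : a * w ∈ P₁ := by
      convert sub_mem (P₁.mul_mem_right c hu₁) (hle₁ hrel.comm₂) using 1; ring
    refine ⟨P₁, hP₁, hle₁, hϖ₁, fun he => ?_⟩
    by_cases hw₁ : w ∈ P₁
    · refine not_dimGE_of_params (insert a (insert (b + c) s)) ?_ (fun Q hQ hPQ hsQ => ?_) ?_ hd₁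
      · simp only [Finset.mem_insert, forall_eq_or_imp]
        exact ⟨ham, add_mem hbm hcm, hs⟩
      · simp only [Finset.mem_insert, forall_eq_or_imp] at hsQ
        obtain ⟨haQ, hbcQ, hsQ⟩ := hsQ
        have hb : b ∈ Q := hQ.mem_of_pow_mem 2 (by
          convert add_mem (sub_mem (Q.mul_mem_left b hbcQ) (hPQ he)) (Q.mul_mem_left a haQ)
            using 1
          ring)
        have hc : c ∈ Q := by simpa using sub_mem hbcQ hb
        exact hgen Q hQ hsQ (hPQ hϖ₁) haQ hb hc (hPQ hu₁) (hPQ hv₁) (hPQ hw₁)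
      · have := Finset.card_insert_le a (insert (b + c) s)
        have := Finset.card_insert_le (b + c) s
        omega
    · have ha₁ : a ∈ P₁ := (hP₁.mem_or_mem haw).resolve_right hw₁
      have hb₁ : b ∈ P₁ := (hP₁.mem_or_mem hbw).resolve_right hw₁
      refine not_dimGE_of_params (insert c (insert w s)) ?_ (fun Q hQ hPQ hsQ => ?_) ?_ hd₁
      · simp only [Finset.mem_insert, forall_eq_or_imp]
        exact ⟨hcm, hwm, hs⟩
      · simp only [Finset.mem_insert, forall_eq_or_imp] at hsQ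
        obtain ⟨hcQ, hwQ, hsQ⟩ := hsQ
        exact hgen Q hQ hsQ (hPQ hϖ₁) (hPQ ha₁) (hPQ hb₁) hcQ (hPQ hu₁) (hPQ hv₁) hwQ
      · have := Finset.card_insert_le c (insert w s)
        have := Finset.card_insert_le w s
        omega
  · have hπ₁ : π ∉ P₁ := fun h => hϖ₁ ((hπ _ hP₁).1 h)
    have hu₁ : u ∉ P₁ := fun h => hπ₁ (hP₁.mem_of_pow_mem 2 (by
      convert sub_mem (Ideal.pow_mem_of_mem P₁ h 2 two_pos) hu2 using 1; ring))
    have hb₁ : b ∈ P₁ := (hP₁.mem_or_mem hub).resolve_left hu₁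
    -- a second cut by `w - π`
    obtain ⟨P₂, hP₂, hle₂, hw₂, hd₂⟩ :=
      exists_prime_cut (n := s.card + 2) hd₁ (sub_mem hwm hπm)
    have huc : u * c - a * π ∈ P₂ := by
      convert add_mem (hle₂ (hle₁ hrel.comm₂)) (P₂.mul_mem_left a hw₂) using 1; ring
    by_cases hϖ₂ : ϖ ∈ P₂
    · -- `P₂` is already in the special fibre
      have hπ₂ := (hπ _ hP₂).2 hϖ₂
      have hu₂ : u ∈ P₂ := hP₂.mem_of_pow_mem 2 (by
        convert add_mem (hle₂ hu2) (Ideal.pow_mem_of_mem P₂ hπ₂ 2 two_pos) using 1; ring)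
      have hw₂' : w ∈ P₂ := by simpa using add_mem hw₂ hπ₂
      refine ⟨P₂, hP₂, hle₁.trans hle₂, hϖ₂, fun he => ?_⟩
      have ha₂ : a ∈ P₂ := hP₂.mem_of_pow_mem 2 (by
        convert sub_mem he (P₂.mul_mem_right c (hle₂ hb₁)) using 1; ring)
      refine not_dimGE_of_params (insert c s) ?_ (fun Q hQ hPQ hsQ => ?_) ?_ hd₂
      · simp only [Finset.mem_insert, forall_eq_or_imp]
        exact ⟨hcm, hs⟩
      · simp only [Finset.mem_insert, forall_eq_or_imp] at hsQ
        exact hgen Q hQ hsQ.2 (hPQ hϖ₂) (hPQ ha₂) (hPQ (hle₂ hb₁)) hsQ.1 (hPQ hu₂)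
          (hPQ (hle₂ hv₁)) (hPQ hw₂')
      · have := Finset.card_insert_le c s
        omega
    · have hπ₂ : π ∉ P₂ := fun h => hϖ₂ ((hπ _ hP₂).1 h)
      -- `u = ± π`, hence `c = ± a`
      obtain ⟨σ, hσ, huσ⟩ : ∃ σ : R, σ * σ = 1 ∧ u - σ * π ∈ P₂ := by
        rcases hP₂.mem_or_mem (show (u - π) * (u + π) ∈ P₂ by
          convert hle₂ hu2 using 1; ring) with h | h
        · exact ⟨1, one_mul 1, by rwa [one_mul]⟩
        · exact ⟨-1, by ring, by rwa [neg_one_mul, sub_neg_eq_add]⟩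
      have hca : c - σ * a ∈ P₂ := by
        refine (hP₂.mem_or_mem (show σ * π * (c - σ * a) ∈ P₂ by
          convert sub_mem huc (P₂.mul_mem_right c huσ) using 1
          linear_combination (-π * a) * hσ)).resolve_left fun h => hπ₂ ?_
        have := P₂.mul_mem_left σ h
        rwa [← mul_assoc, hσ, one_mul] at this
      -- a third cut by `ϖ`
      obtain ⟨M, hM, hle₃, hϖM, hd₃⟩ := exists_prime_cut (n := s.card + 1) hd₂ hϖm
      have hπM : π ∈ M := (hπ _ hM).2 hϖM
      have hwM : w ∈ M := by simpa using add_mem (hle₃ hw₂) hπM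
      have huM : u ∈ M := by simpa using add_mem (hle₃ huσ) (M.mul_mem_left σ hπM)
      refine ⟨M, hM, hle₁.trans (hle₂.trans hle₃), hϖM, fun he => ?_⟩
      have hbM : b ∈ M := hle₃ (hle₂ hb₁)
      have haM : a ∈ M := hM.mem_of_pow_mem 2 (by
        convert sub_mem he (M.mul_mem_right c hbM) using 1; ring)
      have hcM : c ∈ M := by simpa using add_mem (hle₃ hca) (M.mul_mem_left σ haM)
      refine not_dimGE_of_params s hs (fun Q hQ hPQ hsQ => ?_) (lt_add_one _) hd₃
      exact hgen Q hQ hsQ (hPQ hϖM) (hPQ haM) (hPQ hbM) (hPQ hcM) (hPQ huM)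
        (hPQ (hle₃ (hle₂ hv₁))) (hPQ hwM)

end Components

section Unipotent

/-- `Φ N = q N Φ` with `N` nilpotent forces `(q t² - (1+q)² D) N = 0`, entrywise modulo a prime
not containing that scalar. -/
theorem entries_mem_of_unipotent {R : Type*} [CommRing R] {P : Ideal R} [P.IsPrime] (q : R)
    (Φ N : Matrix (Fin 2) (Fin 2) R) (htr : N.trace ∈ P) (hdet : N.det ∈ P)
    (hrel : ∀ i k, (Φ * N - q • (N * Φ)) i k ∈ P)
    (hne : q * Φ.trace ^ 2 - (1 + q) ^ 2 * Φ.det ∉ P) : ∀ i k, N i k ∈ P := by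
  set f := Ideal.Quotient.mk P
  have hmap : ∀ i k, f (N i k) = 0 → N i k ∈ P := fun i k => Ideal.Quotient.eq_zero_iff_mem.1
  have e : ∀ {x}, x ∈ P → f x = 0 := fun hx => Ideal.Quotient.eq_zero_iff_mem.2 hx
  have r00 := e (hrel 0 0)
  have r01 := e (hrel 0 1)
  have r10 := e (hrel 1 0)
  have r11 := e (hrel 1 1)
  have t0 := e htr
  have d0 := e hdet
  have hne' : f (q * Φ.trace ^ 2 - (1 + q) ^ 2 * Φ.det) ≠ 0 := fun h =>
    hne (Ideal.Quotient.eq_zero_iff_mem.1 h)
  simp only [Matrix.sub_apply, Matrix.smul_apply, Matrix.mul_apply, Fin.sum_univ_two, smul_eq_mul,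
    map_sub, map_add, map_mul] at r00 r01 r10 r11
  simp only [Matrix.trace_fin_two, map_add] at t0
  simp only [Matrix.det_fin_two, map_sub, map_mul] at d0
  simp only [Matrix.trace_fin_two, Matrix.det_fin_two, map_sub, map_add, map_mul, map_pow,
    map_one] at hne'
  set A := f (Φ 0 0); set B := f (Φ 0 1); set C := f (Φ 1 0); set D := f (Φ 1 1)
  set X := f (N 0 0); set Y := f (N 0 1); set Z := f (N 1 0)
  set W := f (N 1 1)
  set Q := f q
  set S := A * X + B * Z + C * Y + D * W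
  have hW : W = -X := by linear_combination t0
  simp only [hW] at r01 r10 r11 d0
  have hSY : Q * S * Y = 0 := by
    have : S = A * X + B * Z + C * Y - D * X := by simp only [S, hW]; ring
    rw [this]
    linear_combination (-Y) * r00 + X * r01 + (-(1 + Q) * B) * d0
  have hSZ : Q * S * Z = 0 := by
    have : S = A * X + B * Z + C * Y - D * X := by simp only [S, hW]; ring
    rw [this]
    linear_combination (-X) * r10 + (-Z) * r11 + (-(1 + Q) * C) * d0
  have hS : S = A * X + B * Z + C * Y - D * X := by simp only [S, hW]; ring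
  have hX : (Q * (A + D) ^ 2 - (1 + Q) ^ 2 * (A * D - B * C)) * Y = 0 := by
    rcases mul_eq_zero.1 hSY with h | h
    · rcases mul_eq_zero.1 h with h0 | h0
      · rw [h0] at r01 r11 ⊢
        linear_combination (-D) * r01 + B * r11
      · rw [hS] at h0
        linear_combination (-(D - Q * A)) * r01 + (1 + Q) * B * r11 + (1 + Q) * Q * B * h0
    · rw [h, mul_zero]
  have hZ : (Q * (A + D) ^ 2 - (1 + Q) ^ 2 * (A * D - B * C)) * Z = 0 := by
    rcases mul_eq_zero.1 hSZ with h | h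
    · rcases mul_eq_zero.1 h with h0 | h0
      · rw [h0] at r00 r10 ⊢
        linear_combination (-A) * r10 + C * r00
      · rw [hS] at h0
        linear_combination (-(A - Q * D)) * r10 + (1 + Q) * C * r00 + (1 + Q) * Q * C * h0
    · rw [h, mul_zero]
  have hY0 : Y = 0 := (mul_eq_zero.1 hX).resolve_left hne'
  have hZ0 : Z = 0 := (mul_eq_zero.1 hZ).resolve_left hne'
  have hX0 : X = 0 := by
    rw [hY0, hZ0] at d0
    exact pow_eq_zero_iff two_ne_zero |>.1 (by linear_combination -d0)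
  intro i k
  apply hmap
  fin_cases i <;> fin_cases k
  · exact hX0
  · exact hY0
  · exact hZ0
  · show W = 0
    linear_combination t0 - hX0

end Unipotent

end Fermat.Agent.Patch
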