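import Fermat.Agent.Patch.System

/-!
Lemmas for level raising after patching: a support criterion for cokernels, free cokernels, and
free modules with a commuting action as matrix actions.
-/

set_option autoImplicit false

noncomputable section

namespace Fermat.Agent.Patch

open IsLocalRing

section Cokernel

variable {R : Type*} [CommRing R] {A B : Type*} [AddCommGroup A] [Module R A] [AddCommGroup B]
  [Module R B] [Module.Finite R A]

/-- An element multiplying `A` into `x • A` lies in `x` when `x` is in the support. -/
theorem mem_of_range_le_smul {x : Ideal R} [x.IsPrime] (hx : Module.annihilator R A ≤ x) {r : R}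
    (h : ∀ a : A, r • a ∈ x • (⊤ : Submodule R A)) : r ∈ x := by
  obtain ⟨p, hmon, -, hcoef, haev⟩ :=
    LinearMap.exists_monic_and_natDegree_eq_and_coeff_mem_pow_and_aeval_eq_zero R
      (algebraMap R (Module.End R A) r) x (by
        rintro _ ⟨a, rfl⟩
        simpa using h a)
  have hev : p.eval r ∈ x := hx (Module.mem_annihilator.2 fun a => by
    have := LinearMap.congr_fun haev a
    rw [Polynomial.aeval_algebraMap_apply, Polynomial.coe_aeval_eq_eval] at this
    simpa using this)
  refine ‹x.IsPrime›.mem_of_pow_mem p.natDegree ?_
  rw [Polynomial.eval_eq_sum_range, Finset.sum_range_succ, hmon.coeff_natDegree, one_mul] at hev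
  refine (Ideal.add_mem_iff_right _ (sum_mem fun i hi => x.mul_mem_right _ ?_)).1 hev
  exact Ideal.pow_le_self (by have := Finset.mem_range.1 hi; omega) (hcoef i)

end Cokernel

section Free

variable {R : Type*} [CommRing R] {Λ : Type*} [CommRing Λ] {C : Type*} [AddCommGroup C]
  [Module R C] [Module Λ C] [SMulCommClass R Λ C]

/-- A finite free `Λ`-module with commuting `R`-action as a matrix action. -/
theorem exists_matrixAction [Nontrivial Λ] [Module.Free Λ C] [Module.Finite Λ C]
    (hsc : ∀ l : Λ, ∃ r : R, ∀ c : C, r • c = l • c) :
    ∃ (d : ℕ) (ρ : R →+* Matrix (Fin d) (Fin d) Λ), ScalarsIn ρ ∧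
      RingHom.ker ρ = Module.annihilator R C ∧ (Nontrivial C → d ≠ 0) := by
  classical
  let b := Module.finBasis Λ C
  let op : R →+* Module.End Λ C :=
    { toFun := fun r => { toFun := fun c => r • c
                          map_add' := smul_add r
                          map_smul' := fun l c => smul_comm r l c }
      map_one' := LinearMap.ext fun c => one_smul R c
      map_mul' := fun r s => LinearMap.ext fun c => mul_smul r s c
      map_zero' := LinearMap.ext fun c => zero_smul R c
      map_add' := fun r s => LinearMap.ext fun c => add_smul r s c }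
  refine ⟨_, (LinearMap.toMatrixAlgEquiv b).toRingEquiv.toRingHom.comp op, fun l => ?_, ?_, ?_⟩
  · obtain ⟨r, hr⟩ := hsc l
    refine ⟨r, ?_⟩
    have : op r = l • (1 : Module.End Λ C) := LinearMap.ext fun c => hr c
    simp [this]
  · ext r
    rw [RingHom.mem_ker, Module.mem_annihilator]
    refine ⟨fun h c => ?_, fun h => ?_⟩
    · have h' : op r = 0 := (LinearMap.toMatrixAlgEquiv b).injective (by
        rw [map_zero]; exact h)
      exact LinearMap.congr_fun h' c
    · have h' : op r = 0 := LinearMap.ext fun c => h c
      simp [h']
  · intro h hd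
    have : IsEmpty (Fin (Module.finrank Λ C)) := by rw [hd]; infer_instance
    have := b.repr.toEquiv.subsingleton
    exact not_nontrivial C h

/-- The cokernel of a split injection of finite free modules over a local ring is free. -/
theorem free_coker [IsLocalRing Λ] {A B : Type*} [AddCommGroup A] [Module Λ A] [AddCommGroup B]
    [Module Λ B] [Module.Free Λ B] [Module.Finite Λ B] (F : A →ₗ[Λ] B) (L : B →ₗ[Λ] A)
    (h : L.comp F = LinearMap.id) : Module.Free Λ (B ⧸ LinearMap.range F) := by
  let π : B →ₗ[Λ] B := LinearMap.id - F.comp L
  have hker : LinearMap.range F ≤ LinearMap.ker π := by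
    rintro _ ⟨a, rfl⟩
    have := LinearMap.congr_fun h a
    simp [π] at this ⊢
    rw [this, sub_self]
  let s : (B ⧸ LinearMap.range F) →ₗ[Λ] B := (LinearMap.range F).liftQ π hker
  have : Module.Projective Λ (B ⧸ LinearMap.range F) :=
    Module.Projective.of_split s (LinearMap.range F).mkQ (LinearMap.ext fun q => by
      obtain ⟨b, rfl⟩ := Submodule.Quotient.mk_surjective _ q
      show Submodule.Quotient.mk (π b) = Submodule.Quotient.mk b
      rw [Submodule.Quotient.eq]
      exact ⟨-(L b), by simp [π]⟩)
  exact Module.free_of_flat_of_isLocalRing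

end Free

end Fermat.Agent.Patch
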