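import Fermat.Agent.Patch.Ultralimit
import Fermat.Agent.Patch.Support

/-!
Patching of a system of modules `M n`, free over `Λ / I n`, with actions of a fixed ring `R`.
-/

set_option autoImplicit false

noncomputable section

namespace Fermat.Agent.Patch

open IsLocalRing Filter

/-- A ring map into a finite ring kills a power of the maximal ideal depending only on the
cardinality of the target. -/
theorem map_pow_maximalIdeal_eq_zero {R S : Type*} [CommRing R] [IsLocalRing R]
    [IsNoetherianRing R] [Ring S] [Finite S] (f : R →+* S) {x : R}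
    (hx : x ∈ maximalIdeal R ^ Nat.card (Set S)) : f x = 0 := by
  classical
  set K := fun i : ℕ => RingHom.ker f ⊔ maximalIdeal R ^ i with hK
  have hanti : Antitone K := fun i j h => sup_le_sup_left (Ideal.pow_le_pow_right h) _
  have hinj : ∀ i j, f '' (K i : Set R) = f '' (K j : Set R) → K i ≤ K j := by
    intro i j h y hy
    obtain ⟨z, hz, hzy⟩ : f y ∈ f '' (K j : Set R) := h ▸ ⟨y, hy, rfl⟩
    have hd : y - z ∈ RingHom.ker f := by rw [RingHom.mem_ker, map_sub, hzy, sub_self]
    simpa using add_mem (Ideal.mem_sup_left (T := maximalIdeal R ^ j) hd) hz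
  have : Fintype (Set S) := Fintype.ofFinite _
  obtain ⟨i, j, hne, he⟩ := Fintype.exists_ne_map_eq_of_card_lt
    (fun i : Fin (Nat.card (Set S) + 1) => f '' (K i : Set R))
    (by simp [Nat.card_eq_fintype_card])
  wlog hij : (i : ℕ) < j generalizing i j
  · exact this j i hne.symm he.symm
      (lt_of_le_of_ne (not_lt.1 hij) fun h => hne (Fin.ext h.symm))
  have hstat : K i ≤ K (i + 1) := (hinj _ _ he).trans (hanti hij)
  have hle : maximalIdeal R ^ (i : ℕ) ≤ RingHom.ker f :=
    Submodule.le_of_le_smul_of_le_jacobson_bot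
      (I := maximalIdeal R) (IsNoetherian.noetherian _)
      (by rw [IsLocalRing.jacobson_eq_maximalIdeal]; exact bot_ne_top)
      (by
        rw [smul_eq_mul, ← pow_succ']
        exact le_sup_right.trans hstat)
  exact RingHom.mem_ker.1 (hle (Ideal.pow_le_pow_right (Nat.lt_succ_iff.1 i.2) hx))

variable {R : Type*} [CommRing R] {Λ : Type*} [CommRing Λ] {d : ℕ}

/-- Generators `e` with relations exactly `I`: a basis over `Λ / I`. -/
structure IsModBasis {N : Type*} [AddCommGroup N] [Module Λ N] (I : Ideal Λ) (e : Fin d → N) :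
    Prop where
  span : Submodule.span Λ (Set.range e) = ⊤
  rel : ∀ c : Fin d → Λ, ∑ i, c i • e i = 0 ↔ ∀ i, c i ∈ I

namespace IsModBasis

variable {N : Type*} [AddCommGroup N] [Module Λ N] {I : Ideal Λ} {e : Fin d → N}
  (he : IsModBasis I e)

include he in
theorem exists_coeff (x : N) : ∃ c : Fin d → Λ, ∑ i, c i • e i = x := by
  rw [← Submodule.mem_span_range_iff_exists_fun, he.span]; trivial

include he in
theorem congr_coeff {c c' : Fin d → Λ} (h : ∑ i, c i • e i = ∑ i, c' i • e i) :
    ∀ i, c i - c' i ∈ I := by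
  refine (he.rel fun i => c i - c' i).1 ?_
  simp [sub_smul, Finset.sum_sub_distrib, h]

variable [Module R N]

/-- The matrix of `r` in the basis. -/
def matrix (r : R) : Matrix (Fin d) (Fin d) Λ := fun i j => (he.exists_coeff (r • e j)).choose i

theorem matrix_spec (r : R) (j : Fin d) : ∑ i, he.matrix r i j • e i = r • e j :=
  (he.exists_coeff (r • e j)).choose_spec

theorem matrix_unique {r : R} {A : Matrix (Fin d) (Fin d) Λ}
    (h : ∀ j, ∑ i, A i j • e i = r • e j) : MatCong I (he.matrix r) A := fun i j =>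
  he.congr_coeff (c := fun i => he.matrix r i j) (c' := fun i => A i j)
    (by rw [he.matrix_spec, h]) i

theorem matrix_one : MatCong I (he.matrix (1 : R)) 1 :=
  he.matrix_unique fun j => by simp [Matrix.one_apply, ite_smul]

theorem matrix_add (x y : R) : MatCong I (he.matrix (x + y)) (he.matrix x + he.matrix y) :=
  he.matrix_unique fun j => by
    simp [add_smul, Finset.sum_add_distrib, he.matrix_spec]

variable [SMulCommClass R Λ N]

theorem matrix_mul (x y : R) : MatCong I (he.matrix (x * y)) (he.matrix x * he.matrix y) :=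
  he.matrix_unique fun j => by
    rw [mul_smul, ← he.matrix_spec y j, Finset.smul_sum]
    simp only [Matrix.mul_apply, Finset.sum_smul]
    rw [Finset.sum_comm]
    refine Finset.sum_congr rfl fun l _ => ?_
    rw [smul_comm, ← he.matrix_spec x l, Finset.smul_sum]
    exact Finset.sum_congr rfl fun i _ => by rw [mul_comm, mul_smul]

end IsModBasis

section Patch

variable [IsLocalRing Λ] [IsNoetherianRing Λ] [Finite (ResidueField Λ)]
  [IsAdicComplete (maximalIdeal Λ) Λ]
  {I : ℕ → Ideal Λ} {M : ℕ → Type*} [∀ n, AddCommGroup (M n)] [∀ n, Module R (M n)]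
  [∀ n, Module Λ (M n)] [∀ n, SMulCommClass R Λ (M n)]
  {e : ∀ n, Fin d → M n}

/-- The almost homomorphisms of a based system. -/
def systemHoms (he : ∀ n, IsModBasis (I n) (e n)) : AlmostHoms R Λ d where
  I := I
  A n := (he n).matrix
  one n := (he n).matrix_one
  add n := (he n).matrix_add
  mul n := (he n).matrix_mul

/-- The patched action on `Λ^d`. -/
def patchAction (he : ∀ n, IsModBasis (I n) (e n)) (hI : TendsToZero I) :
    R →+* Matrix (Fin d) (Fin d) Λ :=
  (systemHoms he).limit hI

theorem patchAction_eq (he : ∀ n, IsModBasis (I n) (e n)) (hI : TendsToZero I) (x : R) :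
    patchAction he hI x = ulimMat fun n => (he n).matrix x := rfl

/-- Scalars lie in the image of the patched action. -/
theorem scalarsIn_patchAction [IsLocalRing R] [IsNoetherianRing R] [Finite (ResidueField R)]
    [IsAdicComplete (maximalIdeal R) R] (he : ∀ n, IsModBasis (I n) (e n)) (hI : TendsToZero I)
    (hsc : ∀ n (l : Λ), ∃ r : R, ∀ j, r • e n j = l • e n j) :
    ScalarsIn (patchAction (R := R) he hI) := by
  intro l
  choose r hr using fun n => hsc n l
  refine ⟨ulim r, ?_⟩
  have h1 : ∀ n, MatCong (I n) ((he n).matrix (r n)) (l • (1 : Matrix (Fin d) (Fin d) Λ)) :=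
    fun n => (he n).matrix_unique fun j => by
      simp [Matrix.smul_apply, Matrix.one_apply, ite_smul, hr]
  refine Matrix.ext fun i j => ulim_unique fun k => ?_
  have := finite_quot (Λ := Λ) k
  have : Finite (Matrix (Fin d) (Fin d) (Λ ⧸ maximalIdeal Λ ^ k)) := Finite.of_equiv _ Matrix.of
  filter_upwards [hI k, ulim_spec r
    (Nat.card (Set (Matrix (Fin d) (Fin d) (Λ ⧸ maximalIdeal Λ ^ k))))] with n hn hrn
  let f : R →+* Matrix (Fin d) (Fin d) (Λ ⧸ maximalIdeal Λ ^ k) := RingHom.mk'
    { toFun := fun x => (Ideal.Quotient.mk _).mapMatrix ((he n).matrix x)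
      map_one' := (matCong_iff.1 ((he n).matrix_one.mono hn)).trans (map_one _)
      map_mul' := fun x y =>
        (matCong_iff.1 (((he n).matrix_mul x y).mono hn)).trans (map_mul _ _ _) }
    fun x y => (matCong_iff.1 (((he n).matrix_add x y).mono hn)).trans (map_add _ _ _)
  have h2 : MatCong (maximalIdeal Λ ^ k) ((he n).matrix (r n)) ((he n).matrix (ulim r)) := by
    rw [matCong_iff]
    show f (r n) = f (ulim r)
    rw [← sub_eq_zero, ← map_sub]
    exact map_pow_maximalIdeal_eq_zero f hrn
  exact (h2.symm.trans ((h1 n).mono hn)) i j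

end Patch

section Base

variable {a : Ideal Λ} {M₀ : Type*} [AddCommGroup M₀] [Module R M₀] [Module Λ M₀]
  [SMulCommClass R Λ M₀] {e₀ : Fin d → M₀} {ρ : R →+* Matrix (Fin d) (Fin d) Λ}

/-- The annihilator of the base module is cut out by the reduction of the action. -/
theorem mem_annihilator_iff_vanishesMod (he₀ : IsModBasis a e₀)
    (hρ : ∀ (r : R) j, ∑ i, ρ r i j • e₀ i = r • e₀ j) {r : R} :
    r ∈ Module.annihilator R M₀ ↔ VanishesMod ρ a r := by
  rw [Module.mem_annihilator]
  refine ⟨fun h i j => (he₀.rel fun i => ρ r i j).1 (by rw [hρ, h]) i, fun h x => ?_⟩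
  obtain ⟨c, rfl⟩ := he₀.exists_coeff x
  rw [Finset.smul_sum]
  refine Finset.sum_eq_zero fun j _ => ?_
  rw [smul_comm, ← hρ, (he₀.rel _).2 fun i => h i j, smul_zero]

/-- Every component of the patched support gives, over any prime `q ⊇ a` of `Λ`, a prime in the
support of the base module. -/
theorem exists_prime_of_component [IsNoetherianRing Λ] [IsDomain Λ] [NeZero d]
    (he₀ : IsModBasis a e₀) (hρ : ∀ (r : R) j, ∑ i, ρ r i j • e₀ i = r • e₀ j)
    (hsc : ScalarsIn ρ) {P : Ideal R} (hP : P ∈ (RingHom.ker ρ).minimalPrimes)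
    {q : Ideal Λ} [q.IsPrime] (haq : a ≤ q) :
    ∃ P' : Ideal R, P'.IsPrime ∧ P ≤ P' ∧ Module.annihilator R M₀ ≤ P' ∧
      ∀ r l, ρ r = l • (1 : Matrix (Fin d) (Fin d) Λ) → (r ∈ P' ↔ l ∈ q) := by
  obtain ⟨P', hP', hle, hK, hq⟩ := exists_prime_over hsc hP (q := q)
  refine ⟨P', hP', hle, fun r hr => ?_, hq⟩
  exact mem_of_vanishesMod hsc hK (fun x l hl hx => (hq x l hx).2 (haq hl))
    ((mem_annihilator_iff_vanishesMod he₀ hρ).1 hr)

end Base

end Fermat.Agent.Patch
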