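import Fermat.Agent.Patch.System
import Fermat.Agent.Patch.IharaAvoidance

/-!
Taylor's trick, assembled: two patched actions congruent modulo `ϖ`, one of which has inertia at `q`
of eigenvalues `≠ 1`, the other unipotent; then the second has an unramified component.
-/

set_option autoImplicit false

noncomputable section

namespace Fermat.Agent.Patch

open IsLocalRing

variable {R : Type*} [CommRing R] [IsNoetherianRing R] [IsLocalRing R]
  {Λ : Type*} [CommRing Λ] [IsNoetherianRing Λ] [IsDomain Λ] {d : ℕ} [NeZero d]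

/-- The conclusion of the local lemmas for every component of the support: a prime over `ϖ` with
non-nilpotent Frobenius discriminant. -/
theorem exists_unramified_component {ρ ρ' : R →+* Matrix (Fin d) (Fin d) Λ}
    (hsc : ScalarsIn ρ) {l : Λ} {ϖ : R} (hϖ : ρ ϖ = l • (1 : Matrix (Fin d) (Fin d) Λ))
    (hcong : ∀ x i k, ρ x i k - ρ' x i k ∈ Ideal.span {l})
    {e : R} (hspecial : ∀ P ∈ (RingHom.ker ρ).minimalPrimes,
      ∃ M : Ideal R, M.IsPrime ∧ P ≤ M ∧ ϖ ∈ M ∧ e ∉ M)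
    {q : R} (hq : ∀ M : Ideal R, M.IsPrime → ϖ ∈ M → q - 1 ∈ M)
    (Φ N : Matrix (Fin 2) (Fin 2) R)
    (htr : N.trace ∈ RingHom.ker ρ') (hdet : N.det ∈ RingHom.ker ρ')
    (hrel : ∀ i k, (Φ * N - q • (N * Φ)) i k ∈ RingHom.ker ρ')
    (he : Φ.trace ^ 2 - 4 * Φ.det = 4 * e) (h2 : IsUnit (2 : R)) :
    ∃ P₁ ∈ (RingHom.ker ρ').minimalPrimes, ∀ i k, N i k ∈ P₁ := by
  have : Nonempty (Fin d) := ⟨⟨0, Nat.pos_of_ne_zero (NeZero.ne d)⟩⟩
  obtain ⟨m, hm, hle⟩ := Ideal.exists_le_maximal _ (RingHom.ker_ne_top ρ)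
  have := hm.isPrime
  obtain ⟨P, hP, -⟩ := Ideal.exists_minimalPrimes_le hle
  obtain ⟨M, hM, hPM, hϖM, heM⟩ := hspecial P hP
  have hKM : RingHom.ker ρ ≤ M := hP.1.2.trans hPM
  have hJM : ContainsScalars ρ (Ideal.span {l}) M :=
    containsScalars_span_singleton hsc hϖ hKM hϖM
  obtain ⟨P₁, hP₁, hP₁M⟩ := Ideal.exists_minimalPrimes_le (ker_le_of_congr hsc hcong hKM hJM)
  have := hP₁.1.1
  refine ⟨P₁, hP₁, entries_mem_of_unipotent q Φ N (hP₁.1.2 htr) (hP₁.1.2 hdet)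
    (fun i k => hP₁.1.2 (hrel i k)) fun h => ?_⟩
  have h1 : q * Φ.trace ^ 2 - (1 + q) ^ 2 * Φ.det ∈ M := hP₁M h
  have hq1 := hq M hM hϖM
  have h4 : (2 * 2 : R) * e ∈ M := by
    have : Φ.trace ^ 2 - 4 * Φ.det ∈ M := by
      convert sub_mem h1 (M.mul_mem_right (Φ.trace ^ 2 - (q + 3) * Φ.det) hq1) using 1; ring
    rw [he] at this
    convert this using 2; norm_num
  exact heM ((Ideal.unit_mul_mem_iff_mem M (h2.mul h2)).1 h4)

/-- Components of the support satisfy the dimension hypothesis of the local lemmas. -/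
theorem dimGE_component {ρ : R →+* Matrix (Fin d) (Fin d) Λ} (hsc : ScalarsIn ρ) {P : Ideal R}
    (hP : P ∈ (RingHom.ker ρ).minimalPrimes) {n : ℕ} (hn : DimGE Λ n) : DimGE (R ⧸ P) n :=
  dimGE_of_mem_minimalPrimes hsc hP hn

end Fermat.Agent.Patch
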